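import Mathlib

/-!
# S17 / tower H: abstract end of the height argument (helper737)

Mathlib-only.  `A` is any commutative additive group (think `MW N`).

* `descent_data_of_pairing_height` : from a quasi-quadratic `q`, a quasi-additive `l`, a
  nonnegative Northcott function `ν` and the positivity inequality
  `ν (-x) ≤ c₁ * (q x - l x / 2) + c₂` (route H-D, inequality (POS)), the function `h := q`
  is a descent height for the exponent `2`: Northcott, `h x ≤ 2 * h (g + x) + c g`,
  `4 * h x - c₀ ≤ h (2 • x)`.  The conclusion is literally the body of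
  `Skel.HasDescentHeight N 2` with `MW N` replaced by `A`.  No Tate limit is needed.
* `exists_quadratic_limit`, `exists_additive_limit` : Tate limits (exact quadratic / additive
  function at bounded distance), for users who prefer exact forms.
-/

set_option autoImplicit false

namespace Fermat.Agent.S17.H737

section Descent

variable {A : Type*} [AddCommGroup A]

/-- A quasi-quadratic function is bounded at `0`. -/
theorem abs_zero_le_of_quasiQuadratic (q : A → ℝ) (C : ℝ)
    (hq : ∀ x y, |q (x + y) + q (x - y) - 2 * q x - 2 * q y| ≤ C) : |q 0| ≤ C / 2 := by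
  have h := hq 0 0
  simp only [add_zero, sub_zero] at h
  have h2 : q 0 + q 0 - 2 * q 0 - 2 * q 0 = -(2 * q 0) := by ring
  rw [h2, abs_neg, abs_mul, abs_two] at h
  linarith

/-- A quasi-quadratic function is quasi-even. -/
theorem abs_neg_sub_le_of_quasiQuadratic (q : A → ℝ) (C : ℝ)
    (hq : ∀ x y, |q (x + y) + q (x - y) - 2 * q x - 2 * q y| ≤ C) (y : A) :
    |q (-y) - q y| ≤ 2 * C := by
  have h0 := abs_zero_le_of_quasiQuadratic q C hq
  have h := hq 0 y
  simp only [zero_add, zero_sub] at h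
  have e : q (-y) - q y = (q y + q (-y) - 2 * q 0 - 2 * q y) + 2 * q 0 := by ring
  rw [e]
  calc |(q y + q (-y) - 2 * q 0 - 2 * q y) + 2 * q 0|
      ≤ |q y + q (-y) - 2 * q 0 - 2 * q y| + |2 * q 0| := abs_add_le _ _
    _ ≤ C + 2 * (C / 2) := by
        rw [abs_mul, abs_two]
        linarith
    _ = 2 * C := by ring

/-- A quasi-additive function is quasi-odd. -/
theorem abs_add_neg_le_of_quasiAdditive (l : A → ℝ) (C : ℝ)
    (hl : ∀ x y, |l (x + y) - l x - l y| ≤ C) (x : A) : |l x + l (-x)| ≤ 2 * C := by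
  have h0 := hl 0 0
  simp only [add_zero] at h0
  have h00 : |l 0| ≤ C := by
    have e : l 0 - l 0 - l 0 = -(l 0) := by ring
    rwa [e, abs_neg] at h0
  have h := hl x (-x)
  rw [add_neg_cancel] at h
  have e : l x + l (-x) = -(l 0 - l x - l (-x)) + l 0 := by ring
  rw [e]
  calc |-(l 0 - l x - l (-x)) + l 0| ≤ |-(l 0 - l x - l (-x))| + |l 0| := abs_add_le _ _
    _ ≤ C + C := by rw [abs_neg]; linarith
    _ = 2 * C := by ring

/-- **Abstract end of route H-D.**  Quasi-quadratic `q`, quasi-additive `l`, nonnegative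
Northcott `ν`, and `(POS)`: `ν (-x) ≤ c₁ * (q x - l x / 2) + c₂` with `c₁ > 0`.
Then `h := q` satisfies the three requirements of a descent height for the exponent `2`
(with `a = 2 < b = 4`). -/
theorem descent_data_of_pairing_height (q l ν : A → ℝ) (C c₁ c₂ : ℝ) (hc₁ : 0 < c₁)
    (hq : ∀ x y, |q (x + y) + q (x - y) - 2 * q x - 2 * q y| ≤ C)
    (hl : ∀ x y, |l (x + y) - l x - l y| ≤ C)
    (hν0 : ∀ x, 0 ≤ ν x)
    (hν : ∀ B : ℝ, {x : A | ν x ≤ B}.Finite)
    (hpos : ∀ x, ν (-x) ≤ c₁ * (q x - l x / 2) + c₂) :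
    ∃ (h : A → ℝ) (a b c₀ : ℝ) (c : A → ℝ), 0 ≤ a ∧ a < b ∧
      (∀ B : ℝ, {x : A | h x ≤ B}.Finite) ∧
      (∀ g x : A, h x ≤ a * h (g + x) + c g) ∧
      (∀ x : A, b * h x - c₀ ≤ h (2 • x)) := by
  have hC : 0 ≤ C := le_trans (abs_nonneg _) (hq 0 0)
  have hq0 := abs_zero_le_of_quasiQuadratic q C hq
  -- first lower bound: `q x - l x / 2 ≥ - c₂ / c₁`
  have h1 : ∀ x, -(c₂ / c₁) ≤ q x - l x / 2 := by
    intro x
    have h := le_trans (hν0 (-x)) (hpos x)
    have h' : -c₂ ≤ (q x - l x / 2) * c₁ := by linarith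
    rw [← neg_div, div_le_iff₀ hc₁]
    exact h'
  -- second lower bound, from `-x`
  have h2 : ∀ x, -(c₂ / c₁) - 3 * C ≤ q x + l x / 2 := by
    intro x
    have h := h1 (-x)
    have hqe := abs_neg_sub_le_of_quasiQuadratic q C hq x
    have hle := abs_add_neg_le_of_quasiAdditive l C hl x
    have hqe' := (abs_le.1 hqe).2
    have hle' := (abs_le.1 hle).1
    linarith
  -- `q` is bounded below
  have h3 : ∀ x, -(c₂ / c₁) - 3 * C / 2 ≤ q x := by
    intro x
    have := h1 x
    have := h2 x
    linarith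
  refine ⟨q, 2, 4, 3 * C / 2, fun g => 2 * q g + C + (c₂ / c₁ + 3 * C / 2), by norm_num,
    by norm_num, ?_, ?_, ?_⟩
  · -- Northcott
    intro B
    have hfin : {x : A | ν (-x) ≤ c₁ * (2 * B + c₂ / c₁ + 3 * C) + c₂}.Finite := by
      have := (hν (c₁ * (2 * B + c₂ / c₁ + 3 * C) + c₂)).preimage
        (f := fun x : A => -x) (fun x _ y _ hxy => neg_injective hxy)
      exact this
    refine hfin.subset ?_
    intro x hx
    simp only [Set.mem_ofPred_eq] at hx ⊢
    refine le_trans (hpos x) ?_
    have h := h2 x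
    have : q x - l x / 2 ≤ 2 * B + c₂ / c₁ + 3 * C := by linarith
    have := mul_le_mul_of_nonneg_left this hc₁.le
    linarith
  · -- translation
    intro g x
    have h := hq (g + x) g
    have e1 : g + x - g = x := by abel
    rw [e1] at h
    have h' := (abs_le.1 h).2
    have hlow := h3 (g + x + g)
    show q x ≤ 2 * q (g + x) + (2 * q g + C + (c₂ / c₁ + 3 * C / 2))
    linarith
  · -- duplication
    intro x
    have h := hq x x
    rw [sub_self, ← two_nsmul] at h
    have h' := (abs_le.1 h).1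
    have h0 := (abs_le.1 hq0).2
    linarith

end Descent

section TateLimit

variable {A : Type*} [AddCommGroup A]

/-- Tate limit for quasi-quadratic functions: an exact quadratic function at distance `≤ C / 2`. -/
theorem exists_quadratic_limit (f : A → ℝ) (C : ℝ)
    (hf : ∀ x y, |f (x + y) + f (x - y) - 2 * f x - 2 * f y| ≤ C) :
    ∃ q : A → ℝ, (∀ x y, q (x + y) + q (x - y) = 2 * q x + 2 * q y) ∧
      ∀ x, |q x - f x| ≤ C / 2 := by
  have hC : 0 ≤ C := le_trans (abs_nonneg _) (hf 0 0)
  have hf0 := abs_zero_le_of_quasiQuadratic f C hf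
  -- the key estimate
  have hdup : ∀ x, |f (2 • x) - 4 * f x| ≤ 3 * C / 2 := by
    intro x
    have h := hf x x
    rw [sub_self, ← two_nsmul] at h
    have e : f (2 • x) - 4 * f x = (f (2 • x) + f 0 - 2 * f x - 2 * f x) - f 0 := by ring
    rw [e]
    calc |(f (2 • x) + f 0 - 2 * f x - 2 * f x) - f 0|
        ≤ |f (2 • x) + f 0 - 2 * f x - 2 * f x| + |f 0| := abs_sub _ _
      _ ≤ C + C / 2 := by linarith
      _ = 3 * C / 2 := by ring
  let u : A → ℕ → ℝ := fun x n => f ((2 ^ n) • x) / 4 ^ n
  have hstep : ∀ x n, dist (u x n) (u x (n + 1)) ≤ (3 * C / 8) * (1 / 4 : ℝ) ^ n := by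
    intro x n
    have h := hdup ((2 ^ n) • x)
    have e2 : (2 : ℕ) • ((2 ^ n) • x) = (2 ^ (n + 1)) • x := by
      rw [smul_smul, pow_succ, mul_comm]
    rw [e2] at h
    have h4 : (0 : ℝ) < 4 ^ n := by positivity
    have h4' : (0 : ℝ) < 4 ^ (n + 1) := by positivity
    rw [Real.dist_eq]
    have e : u x n - u x (n + 1)
        = -((f ((2 ^ (n + 1)) • x) - 4 * f ((2 ^ n) • x)) / 4 ^ (n + 1)) := by
      simp only [u]
      rw [pow_succ]
      field_simp
      ring
    rw [e, abs_neg, abs_div, abs_of_pos h4']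
    rw [div_le_iff₀ h4']
    calc |f ((2 ^ (n + 1)) • x) - 4 * f ((2 ^ n) • x)| ≤ 3 * C / 2 := h
      _ = 3 * C / 8 * (1 / 4) ^ n * 4 ^ (n + 1) := by
          rw [pow_succ, one_div, inv_pow]
          field_simp
          ring
  have hcau : ∀ x, CauchySeq (u x) := fun x =>
    cauchySeq_of_le_geometric (1 / 4) (3 * C / 8) (by norm_num) (hstep x)
  have hlim : ∀ x, ∃ a, Filter.Tendsto (u x) Filter.atTop (nhds a) := fun x =>
    cauchySeq_tendsto_of_complete (hcau x)
  choose q hq using hlim
  refine ⟨q, ?_, ?_⟩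
  · intro x y
    -- pass to the limit in the quasi-parallelogram law
    have hT : Filter.Tendsto
        (fun n => u (x + y) n + u (x - y) n - 2 * u x n - 2 * u y n) Filter.atTop
        (nhds (q (x + y) + q (x - y) - 2 * q x - 2 * q y)) :=
      (((hq (x + y)).add (hq (x - y))).sub ((hq x).const_mul 2)).sub ((hq y).const_mul 2)
    have hB : ∀ n, |u (x + y) n + u (x - y) n - 2 * u x n - 2 * u y n| ≤ C * (1 / 4 : ℝ) ^ n := by
      intro n
      have h := hf ((2 ^ n) • x) ((2 ^ n) • y)
      rw [← smul_add, ← smul_sub] at h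
      have h4 : (0 : ℝ) < 4 ^ n := by positivity
      have e : u (x + y) n + u (x - y) n - 2 * u x n - 2 * u y n
          = (f ((2 ^ n) • (x + y)) + f ((2 ^ n) • (x - y)) - 2 * f ((2 ^ n) • x)
              - 2 * f ((2 ^ n) • y)) / 4 ^ n := by
        simp only [u]
        ring
      rw [e, abs_div, abs_of_pos h4, div_le_iff₀ h4]
      calc _ ≤ C := h
        _ = C * (1 / 4) ^ n * 4 ^ n := by
            rw [one_div, inv_pow]
            field_simp
    have h0 : Filter.Tendsto (fun n => C * (1 / 4 : ℝ) ^ n) Filter.atTop (nhds 0) := by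
      have := (tendsto_pow_atTop_nhds_zero_of_lt_one (r := (1 / 4 : ℝ)) (by norm_num)
        (by norm_num)).const_mul C
      simpa using this
    have hz : Filter.Tendsto
        (fun n => u (x + y) n + u (x - y) n - 2 * u x n - 2 * u y n) Filter.atTop (nhds 0) :=
      squeeze_zero_norm (fun n => by rw [Real.norm_eq_abs]; exact hB n) h0
    have := tendsto_nhds_unique hT hz
    linarith
  · intro x
    have h := dist_le_of_le_geometric_of_tendsto₀ (1 / 4) (3 * C / 8) (by norm_num) (hstep x)
      (hq x)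
    have e0 : u x 0 = f x := by simp [u]
    rw [e0, dist_comm, Real.dist_eq] at h
    refine le_trans h (le_of_eq ?_)
    norm_num
    ring

/-- Tate limit for quasi-additive functions: an exact additive function at distance `≤ C`. -/
theorem exists_additive_limit (f : A → ℝ) (C : ℝ)
    (hf : ∀ x y, |f (x + y) - f x - f y| ≤ C) :
    ∃ l : A →+ ℝ, ∀ x, |l x - f x| ≤ C := by
  have hC : 0 ≤ C := le_trans (abs_nonneg _) (hf 0 0)
  have hdup : ∀ x, |f (2 • x) - 2 * f x| ≤ C := by
    intro x
    have h := hf x x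
    rw [← two_nsmul] at h
    have e : f (2 • x) - 2 * f x = f (2 • x) - f x - f x := by ring
    rwa [e]
  let u : A → ℕ → ℝ := fun x n => f ((2 ^ n) • x) / 2 ^ n
  have hstep : ∀ x n, dist (u x n) (u x (n + 1)) ≤ (C / 2) * (1 / 2 : ℝ) ^ n := by
    intro x n
    have h := hdup ((2 ^ n) • x)
    have e2 : (2 : ℕ) • ((2 ^ n) • x) = (2 ^ (n + 1)) • x := by
      rw [smul_smul, pow_succ, mul_comm]
    rw [e2] at h
    have h4' : (0 : ℝ) < 2 ^ (n + 1) := by positivity
    rw [Real.dist_eq]
    have e : u x n - u x (n + 1)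
        = -((f ((2 ^ (n + 1)) • x) - 2 * f ((2 ^ n) • x)) / 2 ^ (n + 1)) := by
      simp only [u]
      rw [pow_succ]
      field_simp
      ring
    rw [e, abs_neg, abs_div, abs_of_pos h4']
    rw [div_le_iff₀ h4']
    calc |f ((2 ^ (n + 1)) • x) - 2 * f ((2 ^ n) • x)| ≤ C := h
      _ = C / 2 * (1 / 2) ^ n * 2 ^ (n + 1) := by
          rw [pow_succ, one_div, inv_pow]
          field_simp
  have hcau : ∀ x, CauchySeq (u x) := fun x =>
    cauchySeq_of_le_geometric (1 / 2) (C / 2) (by norm_num) (hstep x)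
  have hlim : ∀ x, ∃ a, Filter.Tendsto (u x) Filter.atTop (nhds a) := fun x =>
    cauchySeq_tendsto_of_complete (hcau x)
  choose l hl using hlim
  have hadd : ∀ x y, l (x + y) = l x + l y := by
    intro x y
    have hT : Filter.Tendsto (fun n => u (x + y) n - u x n - u y n) Filter.atTop
        (nhds (l (x + y) - l x - l y)) := ((hl (x + y)).sub (hl x)).sub (hl y)
    have hB : ∀ n, |u (x + y) n - u x n - u y n| ≤ C * (1 / 2 : ℝ) ^ n := by
      intro n
      have h := hf ((2 ^ n) • x) ((2 ^ n) • y)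
      rw [← smul_add] at h
      have h4 : (0 : ℝ) < 2 ^ n := by positivity
      have e : u (x + y) n - u x n - u y n
          = (f ((2 ^ n) • (x + y)) - f ((2 ^ n) • x) - f ((2 ^ n) • y)) / 2 ^ n := by
        simp only [u]
        ring
      rw [e, abs_div, abs_of_pos h4, div_le_iff₀ h4]
      calc _ ≤ C := h
        _ = C * (1 / 2) ^ n * 2 ^ n := by
            rw [one_div, inv_pow]
            field_simp
    have h0 : Filter.Tendsto (fun n => C * (1 / 2 : ℝ) ^ n) Filter.atTop (nhds 0) := by
      have := (tendsto_pow_atTop_nhds_zero_of_lt_one (r := (1 / 2 : ℝ)) (by norm_num)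
        (by norm_num)).const_mul C
      simpa using this
    have hz : Filter.Tendsto (fun n => u (x + y) n - u x n - u y n) Filter.atTop (nhds 0) :=
      squeeze_zero_norm (fun n => by rw [Real.norm_eq_abs]; exact hB n) h0
    have := tendsto_nhds_unique hT hz
    linarith
  refine ⟨AddMonoidHom.mk' l hadd, fun x => ?_⟩
  have h := dist_le_of_le_geometric_of_tendsto₀ (1 / 2) (C / 2) (by norm_num) (hstep x) (hl x)
  have e0 : u x 0 = f x := by simp [u]
  rw [e0, dist_comm, Real.dist_eq] at h
  refine le_trans h (le_of_eq ?_)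
  norm_num
  ring

end TateLimit

end Fermat.Agent.S17.H737
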