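import Fermat.Agent.S17.H737.Taylor
import Fermat.Agent.Lib.RR.Ord

/-!
# S17 / G-DIV, piece DER-1, abstract core (helper737)

* `exists_taylor_place737` : Taylor expansion `O_v →+* K⟦X⟧` at a place of degree one with respect
  to a uniformiser `t` (injective, `c ↦ C c`, `t ↦ X`, constant coefficient zero exactly on the
  maximal ideal).
* `derivation_mem_place737` : char 0, `F` algebraic over `K(t)`, `D : F → F` additive + Leibniz with
  `D K ⊆ K` and `D t ∈ O_v`  ⟹  `D (O_v) ⊆ O_v`.
* `ord_derivation_ge737`, `ord_derivation_ge_of_eq_zero737` : `ord_v (D f) ≥ ord_v f - 1`, resp.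
  `≥ ord_v f` if `D t = 0`.
-/

set_option autoImplicit false

noncomputable section

namespace Fermat.Agent.S17.H737

open AlgebraicCurve Fermat.Agent.Lib.RR Polynomial PowerSeries

variable {K F : Type*} [Field K] [Field F] [Algebra K F]

/-- At a place of degree one the constants map bijectively onto the residue field. -/
theorem bijective_algebraMap_residue737 (v : Place K F) (hv : v.deg = 1) :
    Function.Bijective (algebraMap K v.ResidueField) := by
  refine ⟨(algebraMap K v.ResidueField).injective, fun w => ?_⟩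
  have h1 : (1 : v.ResidueField) ≠ 0 := one_ne_zero
  have hspan := (finrank_eq_one_iff_of_nonzero' (1 : v.ResidueField) h1).mp hv
  obtain ⟨c, hc⟩ := hspan w
  exact ⟨c, by rw [← hc, Algebra.smul_def, mul_one]⟩

/-- **Taylor expansion at a place of degree one.** -/
theorem exists_taylor_place737 (v : Place K F) (hv : v.deg = 1) (t : F) (ht : v.ord t = 1) :
    ∃ φ : v.toValuationSubring →+* K⟦X⟧,
      Function.Injective φ ∧
      (∀ c : K, φ (algebraMap K v.toValuationSubring c) = PowerSeries.C c) ∧
      (∀ ht' : t ∈ v.toValuationSubring, φ ⟨t, ht'⟩ = PowerSeries.X) ∧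
      (∀ x : v.toValuationSubring, PowerSeries.constantCoeff (φ x) = 0 ↔
        x ∈ IsLocalRing.maximalIdeal v.toValuationSubring) := by
  classical
  have htmem : t ∈ v.toValuationSubring := mem_of_ord_nonneg v (by omega)
  have ht0 : t ≠ 0 := ne_zero_of_ord_ne_zero v (by omega)
  set tO : v.toValuationSubring := ⟨t, htmem⟩ with htO
  let e : K ≃+* v.ResidueField :=
    RingEquiv.ofBijective (algebraMap K v.ResidueField) (bijective_algebraMap_residue737 v hv)
  let res : v.toValuationSubring →+* K :=
    (e.symm : v.ResidueField →+* K).comp (IsLocalRing.residue v.toValuationSubring)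
  have hres0 : ∀ x : v.toValuationSubring, res x = 0 ↔
      x ∈ IsLocalRing.maximalIdeal v.toValuationSubring := by
    intro x
    simp only [res, RingHom.coe_comp, RingHom.coe_coe, Function.comp_apply,
      EmbeddingLike.map_eq_zero_iff]
    exact IsLocalRing.residue_eq_zero_iff x
  have hres : ∀ c, res (algebraMap K v.toValuationSubring c) = c := by
    intro c
    simp only [res, RingHom.coe_comp, RingHom.coe_coe, Function.comp_apply]
    rw [RingEquiv.symm_apply_eq]
    rfl
  have hrt : res tO = 0 := by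
    rw [hres0, mem_maximalIdeal_iff]
    right
    change 0 < v.ord t
    omega
  have hdvd : ∀ x : v.toValuationSubring, res x = 0 → tO ∣ x := by
    intro x hx
    rw [hres0, mem_maximalIdeal_iff] at hx
    rcases hx with hx | hx
    · have : x = 0 := by ext; simpa using hx
      rw [this]
      exact dvd_zero _
    · have hx0 : (x : F) ≠ 0 := ne_zero_of_ord_ne_zero v (by omega)
      have hmem : (x : F) * t⁻¹ ∈ v.toValuationSubring := by
        apply mem_of_ord_nonneg
        rw [v.ord_mul hx0 (inv_ne_zero ht0), v.ord_inv, ht]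
        omega
      refine ⟨⟨(x : F) * t⁻¹, hmem⟩, ?_⟩
      ext
      simp only [htO, MulMemClass.coe_mul]
      field_simp
  have hreg : ∀ x : v.toValuationSubring, tO * x = 0 → x = 0 := by
    intro x hx
    have h0 : tO ≠ 0 := by
      intro h
      exact ht0 (congrArg Subtype.val h)
    exact (mul_eq_zero.mp hx).resolve_left h0
  obtain ⟨φ, hC, hX, hconst, -, hzero⟩ := exists_taylorHom737 res tO hres hrt hdvd hreg
  refine ⟨φ, ?_, hC, fun _ => hX, fun x => by rw [hconst, hres0]⟩
  rw [injective_iff_map_eq_zero]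
  intro x hx
  by_contra hx0
  have hx0' : (x : F) ≠ 0 := fun h => hx0 (by ext; simpa using h)
  have hn : 0 ≤ v.ord (x : F) := ord_nonneg_of_mem v x.2
  obtain ⟨y, hy⟩ := hzero x hx ((v.ord (x : F)).toNat + 1)
  have hy0 : (y : F) ≠ 0 := by
    intro h
    apply hx0'
    have := congrArg Subtype.val hy
    simp only [MulMemClass.coe_mul, h, mul_zero] at this
    exact this
  have h1 := congrArg (fun z : v.toValuationSubring => v.ord (z : F)) hy
  simp only [MulMemClass.coe_mul, SubmonoidClass.coe_pow, htO] at h1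
  rw [v.ord_mul (pow_ne_zero _ ht0) hy0, ord_pow, ht] at h1
  have h2 : 0 ≤ v.ord (y : F) := ord_nonneg_of_mem v y.2
  have h3 : (((v.ord (x : F)).toNat : ℕ) : ℤ) = v.ord (x : F) := Int.toNat_of_nonneg hn
  push_cast at h1
  omega

/-! ### A derivation of power series -/

section PowerSeriesDer

/-- Apply an additive map coefficientwise. -/
def coeffDer737 (d : K →+ K) (p : K⟦X⟧) : K⟦X⟧ := PowerSeries.mk fun n => d (PowerSeries.coeff n p)

@[simp]
theorem coeff_coeffDer737 (d : K →+ K) (p : K⟦X⟧) (n : ℕ) :
    PowerSeries.coeff n (coeffDer737 d p) = d (PowerSeries.coeff n p) := by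
  simp [coeffDer737]

theorem coeffDer737_add (d : K →+ K) (p q : K⟦X⟧) :
    coeffDer737 d (p + q) = coeffDer737 d p + coeffDer737 d q := by
  ext n; simp

theorem coeffDer737_mul (d : K →+ K) (hd : ∀ a b, d (a * b) = a * d b + b * d a) (p q : K⟦X⟧) :
    coeffDer737 d (p * q) = p * coeffDer737 d q + q * coeffDer737 d p := by
  ext n
  rw [coeff_coeffDer737, map_add, mul_comm q, PowerSeries.coeff_mul, PowerSeries.coeff_mul,
    PowerSeries.coeff_mul, map_sum, ← Finset.sum_add_distrib]
  refine Finset.sum_congr rfl fun ij _ => ?_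
  rw [hd, coeff_coeffDer737, coeff_coeffDer737]
  ring

theorem coeffDer737_C (d : K →+ K) (c : K) : coeffDer737 d (PowerSeries.C c) = PowerSeries.C (d c) := by
  ext n
  rw [coeff_coeffDer737, PowerSeries.coeff_C, PowerSeries.coeff_C]
  split_ifs <;> simp

theorem coeffDer737_X (d : K →+ K) (hd1 : d 1 = 0) : coeffDer737 d (PowerSeries.X : K⟦X⟧) = 0 := by
  ext n
  rw [coeff_coeffDer737, PowerSeries.coeff_X]
  split_ifs <;> simp [hd1]

/-- The derivation `p ↦ d(p) + g * p'` of `K⟦X⟧`. -/
def hatDer737 (d : K →+ K) (g : K⟦X⟧) (p : K⟦X⟧) : K⟦X⟧ :=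
  coeffDer737 d p + g * PowerSeries.derivative K p

theorem hatDer737_add (d : K →+ K) (g p q : K⟦X⟧) :
    hatDer737 d g (p + q) = hatDer737 d g p + hatDer737 d g q := by
  simp only [hatDer737, coeffDer737_add, map_add]
  ring

theorem hatDer737_mul (d : K →+ K) (hd : ∀ a b, d (a * b) = a * d b + b * d a) (g p q : K⟦X⟧) :
    hatDer737 d g (p * q) = p * hatDer737 d g q + q * hatDer737 d g p := by
  simp only [hatDer737, coeffDer737_mul d hd, Derivation.leibniz, smul_eq_mul]
  ring

theorem hatDer737_C (d : K →+ K) (g : K⟦X⟧) (c : K) :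
    hatDer737 d g (PowerSeries.C c) = PowerSeries.C (d c) := by
  simp [hatDer737, coeffDer737_C]

theorem hatDer737_X (d : K →+ K) (hd1 : d 1 = 0) (g : K⟦X⟧) :
    hatDer737 d g (PowerSeries.X : K⟦X⟧) = g := by
  simp [hatDer737, coeffDer737_X d hd1]

end PowerSeriesDer

/-! ### Derivations and polynomial expressions -/

section PolyDer

variable {S R M : Type*} [CommRing S] [CommRing R] [CommRing M] [Algebra S R]

theorem der_zero737 (δ : R → M) (hadd : ∀ a b, δ (a + b) = δ a + δ b) : δ 0 = 0 := by
  have := hadd 0 0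
  rw [add_zero] at this
  exact left_eq_add.mp this

theorem der_one737 (ψ : R →+* M) (δ : R → M)
    (hmul : ∀ a b, δ (a * b) = ψ a * δ b + ψ b * δ a) : δ 1 = 0 := by
  have := hmul 1 1
  rw [mul_one, map_one, one_mul] at this
  exact left_eq_add.mp this

theorem der_pow737 (ψ : R →+* M) (δ : R → M)
    (hmul : ∀ a b, δ (a * b) = ψ a * δ b + ψ b * δ a) (x : R) (k : ℕ) :
    δ (x ^ k) = (k : M) * ψ x ^ (k - 1) * δ x := by
  induction k with
  | zero => simp [der_one737 ψ δ hmul]
  | succ k ih =>
    rw [pow_succ, hmul, ih, map_pow]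
    rcases k with _ | k
    · simp
    · simp only [Nat.add_sub_cancel, Nat.cast_add, Nat.cast_one]
      ring

/-- `δ (P(x)) = P^δ(x) + P'(x) δ x`. -/
theorem poly_der737 (ψ : R →+* M) (δ : R → M) (hadd : ∀ a b, δ (a + b) = δ a + δ b)
    (hmul : ∀ a b, δ (a * b) = ψ a * δ b + ψ b * δ a) (P : S[X]) (x : R) :
    δ (Polynomial.aeval x P) =
      P.sum (fun i a => δ (algebraMap S R a) * ψ x ^ i) +
        ψ (Polynomial.aeval x (Polynomial.derivative P)) * δ x := by
  have h0 := der_zero737 δ hadd
  induction P using Polynomial.induction_on' with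
  | add p q hp hq =>
    rw [map_add, hadd, hp, hq, Polynomial.sum_add_index, map_add, map_add, map_add]
    · ring
    · intro i; simp [h0]
    · intro i a b; rw [map_add, hadd]; ring
  | monomial k a =>
    rw [Polynomial.aeval_monomial, hmul, der_pow737 ψ δ hmul, Polynomial.sum_monomial_index,
      Polynomial.derivative_monomial, Polynomial.aeval_monomial]
    · simp only [map_mul, map_pow, map_natCast]
      ring
    · simp [h0]

end PolyDer

/-! ### The main theorem -/

/-- Divisibility is reflected by the Taylor expansion. -/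
theorem dvd_of_taylor_dvd737 (v : Place K F) (φ : v.toValuationSubring →+* K⟦X⟧)
    (hφinj : Function.Injective φ)
    (hφconst : ∀ x : v.toValuationSubring, PowerSeries.constantCoeff (φ x) = 0 ↔
        x ∈ IsLocalRing.maximalIdeal v.toValuationSubring)
    (b w : v.toValuationSubring) (hb : b ≠ 0) (h : φ b ∣ φ w) : b ∣ w := by
  rcases ValuationRing.dvd_total b w with h1 | ⟨c, hc⟩
  · exact h1
  · by_cases hcu : IsUnit c
    · obtain ⟨u, rfl⟩ := hcu
      exact ⟨↑u⁻¹, by rw [hc, mul_assoc, Units.mul_inv, mul_one]⟩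
    · exfalso
      have hcm : c ∈ IsLocalRing.maximalIdeal v.toValuationSubring := hcu
      have hc0 : PowerSeries.constantCoeff (φ c) = 0 := (hφconst c).mpr hcm
      obtain ⟨q, hq⟩ := h
      have hφb : φ b ≠ 0 := fun h0 => hb (hφinj (by rw [h0, map_zero]))
      have h2 : φ b * 1 = φ b * (q * φ c) := by
        rw [mul_one]
        conv_lhs => rw [hc, map_mul, hq]
        ring
      have h3 := mul_left_cancel₀ hφb h2
      have h4 := congrArg PowerSeries.constantCoeff h3
      rw [map_one, map_mul, hc0, mul_zero] at h4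
      exact one_ne_zero h4

open IntermediateField.algebraAdjoinAdjoin in
/-- Over a field of characteristic zero every algebraic element is a root, with nonvanishing
derivative, of a polynomial with coefficients in `K[t]`. -/
theorem exists_poly_derivative_ne_zero737 [CharZero F] (t x : F)
    (hx : IsAlgebraic (IntermediateField.adjoin K {t}) x) :
    ∃ P : (Algebra.adjoin K {t})[X], Polynomial.aeval x P = 0 ∧
      Polynomial.aeval x (Polynomial.derivative P) ≠ 0 := by
  classical
  have hxalg : IsAlgebraic (Algebra.adjoin K {t}) x :=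
    (IsFractionRing.isAlgebraic_iff (Algebra.adjoin K {t}) (IntermediateField.adjoin K {t}) F).mpr
      hx
  have hex : ∃ n, ∃ P : (Algebra.adjoin K {t})[X], P ≠ 0 ∧ Polynomial.aeval x P = 0 ∧
      P.natDegree = n := by
    obtain ⟨P, hP0, hPx⟩ := hxalg
    exact ⟨P.natDegree, P, hP0, hPx, rfl⟩
  obtain ⟨P, hP0, hPx, hPn⟩ := Nat.find_spec hex
  have hmin : ∀ Q : (Algebra.adjoin K {t})[X], Q ≠ 0 → Polynomial.aeval x Q = 0 →
      Nat.find hex ≤ Q.natDegree := fun Q h0 hQ => Nat.find_min' hex ⟨Q, h0, hQ, rfl⟩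
  have hinj : Function.Injective (algebraMap (Algebra.adjoin K {t}) F) := Subtype.val_injective
  have hdeg : P.natDegree ≠ 0 := by
    intro h
    rw [Polynomial.eq_C_of_natDegree_eq_zero h, Polynomial.aeval_C] at hPx
    have : P.coeff 0 = 0 := hinj (by rw [hPx, map_zero])
    apply hP0
    rw [Polynomial.eq_C_of_natDegree_eq_zero h, this, map_zero]
  have hder : Polynomial.derivative P ≠ 0 := by
    intro h
    apply hdeg
    have h1 : Polynomial.derivative (P.map (algebraMap (Algebra.adjoin K {t}) F)) = 0 := by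
      rw [Polynomial.derivative_map, h, Polynomial.map_zero]
    have h2 := Polynomial.derivative_eq_zero.mp h1
    rwa [Polynomial.natDegree_map_eq_of_injective hinj] at h2
  refine ⟨P, hPx, fun h => ?_⟩
  have h1 := hmin _ hder h
  have h2 := Polynomial.natDegree_derivative_lt hdeg
  omega

/-- **DER-1, abstract core.**  Let `v` be a place of degree one of `F / K` (characteristic zero),
`t` a uniformiser at `v` with `F` algebraic over `K(t)`, and `D : F → F` additive with the Leibniz
rule, mapping constants to constants and `t` into `O_v`.  Then `D` maps `O_v` into itself. -/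
theorem derivation_mem_place737 [CharZero F] (v : Place K F) (hv : v.deg = 1)
    (t : F) (ht : v.ord t = 1)
    (halg : Algebra.IsAlgebraic (IntermediateField.adjoin K {t}) F)
    (D : F → F) (hadd : ∀ a b, D (a + b) = D a + D b)
    (hmul : ∀ a b, D (a * b) = a * D b + b * D a)
    (hK : ∀ c : K, ∃ c' : K, D (algebraMap K F c) = algebraMap K F c')
    (hDt : D t ∈ v.toValuationSubring) :
    ∀ x ∈ v.toValuationSubring, D x ∈ v.toValuationSubring := by
  classical
  have htmem : t ∈ v.toValuationSubring := mem_of_ord_nonneg v (by omega)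
  obtain ⟨φ, hφinj, hφC, hφX, hφconst⟩ := exists_taylor_place737 v hv t ht
  -- the induced derivation of `K`
  choose d hd using hK
  have hinj : Function.Injective (algebraMap K F) := (algebraMap K F).injective
  have hdadd : ∀ a b, d (a + b) = d a + d b := by
    intro a b
    apply hinj
    rw [← hd, map_add, hadd, hd, hd, map_add]
  have hdmul : ∀ a b, d (a * b) = a * d b + b * d a := by
    intro a b
    apply hinj
    rw [← hd, map_mul, hmul, hd, hd]
    simp
  let dA : K →+ K := AddMonoidHom.mk' d hdadd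
  have hdA : ∀ a b, dA (a * b) = a * dA b + b * dA a := hdmul
  have hd1 : dA 1 = 0 := by
    have := hdmul 1 1
    rw [mul_one, one_mul] at this
    exact left_eq_add.mp this
  let g : K⟦X⟧ := φ ⟨D t, hDt⟩
  let Dh : K⟦X⟧ → K⟦X⟧ := hatDer737 dA g
  -- the `O`-valued version of `D`
  let dO : v.toValuationSubring → v.toValuationSubring :=
    fun y => if h : D (y : F) ∈ v.toValuationSubring then ⟨D (y : F), h⟩ else 0
  have hdO : ∀ y : v.toValuationSubring, D (y : F) ∈ v.toValuationSubring →
      (dO y : F) = D (y : F) := by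
    intro y h
    simp [dO, h]
  let Good : v.toValuationSubring → Prop :=
    fun y => D (y : F) ∈ v.toValuationSubring ∧ φ (dO y) = Dh (φ y)
  have good_add : ∀ y z, Good y → Good z → Good (y + z) := by
    rintro y z ⟨hy, hy'⟩ ⟨hz, hz'⟩
    have hmem : D ((y + z : v.toValuationSubring) : F) ∈ v.toValuationSubring := by
      push_cast
      rw [hadd]
      exact add_mem hy hz
    refine ⟨hmem, ?_⟩
    have : dO (y + z) = dO y + dO z := by
      ext
      rw [hdO _ hmem]
      push_cast
      rw [hdO _ hy, hdO _ hz, hadd]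
    rw [this, map_add, hy', hz', map_add]
    exact (hatDer737_add dA g _ _).symm
  have good_mul : ∀ y z, Good y → Good z → Good (y * z) := by
    rintro y z ⟨hy, hy'⟩ ⟨hz, hz'⟩
    have hmem : D ((y * z : v.toValuationSubring) : F) ∈ v.toValuationSubring := by
      push_cast
      rw [hmul]
      exact add_mem (mul_mem y.2 hz) (mul_mem z.2 hy)
    refine ⟨hmem, ?_⟩
    have : dO (y * z) = y * dO z + z * dO y := by
      ext
      rw [hdO _ hmem]
      push_cast
      rw [hdO _ hy, hdO _ hz, hmul]
    rw [this, map_add, map_mul, map_mul, hy', hz', map_mul]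
    exact (hatDer737_mul dA hdA g _ _).symm
  have good_C : ∀ c : K, Good (algebraMap K v.toValuationSubring c) := by
    intro c
    have hmem : D ((algebraMap K v.toValuationSubring c : v.toValuationSubring) : F) ∈
        v.toValuationSubring := by
      rw [v.coe_algebraMap, hd]
      exact v.algebraMap_mem' _
    refine ⟨hmem, ?_⟩
    have : dO (algebraMap K v.toValuationSubring c) = algebraMap K v.toValuationSubring (d c) := by
      ext
      rw [hdO _ hmem, v.coe_algebraMap, hd, v.coe_algebraMap]
    rw [this, hφC, hφC]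
    exact (hatDer737_C dA g c).symm
  have good_t : Good ⟨t, htmem⟩ := by
    refine ⟨hDt, ?_⟩
    have : dO ⟨t, htmem⟩ = ⟨D t, hDt⟩ := by
      ext
      rw [hdO _ hDt]
    rw [this, hφX htmem]
    exact (hatDer737_X dA hd1 g).symm
  have good_adjoin : ∀ a : F, a ∈ Algebra.adjoin K {t} →
      ∃ h : a ∈ v.toValuationSubring, Good ⟨a, h⟩ := by
    intro a ha
    induction ha using Algebra.adjoin_induction with
    | mem x hx =>
      rw [Set.mem_singleton_iff] at hx
      subst hx
      exact ⟨htmem, good_t⟩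
    | algebraMap c => exact ⟨v.algebraMap_mem' c, good_C c⟩
    | add x y _ _ hx hy =>
      obtain ⟨hx1, hx2⟩ := hx
      obtain ⟨hy1, hy2⟩ := hy
      exact ⟨add_mem hx1 hy1, good_add _ _ hx2 hy2⟩
    | mul x y _ _ hx hy =>
      obtain ⟨hx1, hx2⟩ := hx
      obtain ⟨hy1, hy2⟩ := hy
      exact ⟨mul_mem hx1 hy1, good_mul _ _ hx2 hy2⟩
  -- the main argument
  intro x hx
  obtain ⟨P, hPx, hPd⟩ := exists_poly_derivative_ne_zero737 (K := K) t x (halg.isAlgebraic x)
  let ι : Algebra.adjoin K {t} →+* v.toValuationSubring :=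
    { toFun := fun a => ⟨(a : F), (good_adjoin a a.2).1⟩
      map_one' := rfl
      map_mul' := fun _ _ => rfl
      map_zero' := rfl
      map_add' := fun _ _ => rfl }
  let _ : Algebra (Algebra.adjoin K {t}) v.toValuationSubring := ι.toAlgebra
  have _ : IsScalarTower (Algebra.adjoin K {t}) v.toValuationSubring F :=
    IsScalarTower.of_algebraMap_eq fun _ => rfl
  have hgoodι : ∀ a : Algebra.adjoin K {t},
      Good (algebraMap (Algebra.adjoin K {t}) v.toValuationSubring a) :=
    fun a => (good_adjoin a a.2).2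
  set xO : v.toValuationSubring := ⟨x, hx⟩ with hxO
  have hcoe : ∀ Q : (Algebra.adjoin K {t})[X],
      ((Polynomial.aeval xO Q : v.toValuationSubring) : F) = Polynomial.aeval x Q := by
    intro Q
    have := Polynomial.aeval_algebraMap_apply (A := v.toValuationSubring) F xO Q
    exact this.symm
  -- level `F`
  have hF := poly_der737 (S := Algebra.adjoin K {t}) (RingHom.id F) D hadd
    (by intro a b; simpa using hmul a b) P x
  rw [hPx, der_zero737 D hadd] at hF
  -- level `O`
  have hOlev := poly_der737 (S := Algebra.adjoin K {t}) φ (fun y => Dh (φ y))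
    (by intro a b; simp only [map_add]; exact hatDer737_add dA g _ _)
    (by intro a b; simp only [map_mul]; exact hatDer737_mul dA hdA g _ _) P xO
  have hPxO : Polynomial.aeval xO P = 0 := by
    ext
    rw [hcoe, hPx]
    rfl
  have hDh0 : Dh (φ 0) = 0 := by
    rw [map_zero]
    have := hatDer737_C dA g 0
    simpa using this
  rw [hPxO, hDh0] at hOlev
  -- the element `w`
  set wO : v.toValuationSubring :=
    P.sum (fun i a => dO (algebraMap (Algebra.adjoin K {t}) v.toValuationSubring a) * xO ^ i)
    with hwO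
  set bO : v.toValuationSubring := Polynomial.aeval xO (Polynomial.derivative P) with hbO
  have hb : (bO : F) = Polynomial.aeval x (Polynomial.derivative P) := hcoe _
  have hb0 : bO ≠ 0 := by
    intro h
    apply hPd
    rw [← hb, h]
    rfl
  have hwcoe : (wO : F) =
      P.sum (fun i a => D (algebraMap (Algebra.adjoin K {t}) F a) * (RingHom.id F) x ^ i) := by
    rw [hwO, Polynomial.sum_def, Polynomial.sum_def]
    push_cast
    refine Finset.sum_congr rfl fun i _ => ?_
    rw [hdO _ (hgoodι _).1]
    rfl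
  have hwφ : φ wO = P.sum (fun i a =>
      Dh (φ (algebraMap (Algebra.adjoin K {t}) v.toValuationSubring a)) * φ xO ^ i) := by
    rw [hwO, Polynomial.sum_def, Polynomial.sum_def, map_sum]
    refine Finset.sum_congr rfl fun i _ => ?_
    rw [map_mul, map_pow, (hgoodι _).2]
  rw [← hwcoe, RingHom.id_apply, ← hb] at hF
  rw [← hwφ] at hOlev
  have hdvd : φ bO ∣ φ wO := by
    refine ⟨-Dh (φ xO), ?_⟩
    linear_combination -hOlev
  obtain ⟨c, hc⟩ := dvd_of_taylor_dvd737 v φ hφinj hφconst bO wO hb0 hdvd
  have hb0' : (bO : F) ≠ 0 := fun h => hb0 (by ext; simpa using h)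
  have hDx : D x = -(c : F) := by
    have h1 : (bO : F) * D x = (bO : F) * (-(c : F)) := by
      have h2 : (wO : F) = (bO : F) * (c : F) := by rw [hc]; rfl
      linear_combination -hF - h2
    exact mul_left_cancel₀ hb0' h1
  rw [hDx]
  exact neg_mem c.2

/-! ### Consequences for orders -/

section Orders

variable [CharZero F] (v : Place K F) (t : F) (D : F → F)

/-- Auxiliary: for `f ∈ O_v \ {0}`, `D f ∈ t ^ (ord f - 1) * O_v`, and `D f ∈ t ^ ord f * O_v` if
`D t = 0` or `ord f = 0`. -/
theorem exists_eq_pow_mul737 (ht : v.ord t = 1)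
    (hmul : ∀ a b, D (a * b) = a * D b + b * D a)
    (hDt : D t ∈ v.toValuationSubring)
    (hO : ∀ x ∈ v.toValuationSubring, D x ∈ v.toValuationSubring)
    {f : F} (hf : f ≠ 0) (hfO : 0 ≤ v.ord f) :
    (∃ y ∈ v.toValuationSubring, D f = t ^ ((v.ord f).toNat - 1) * y) ∧
      (D t = 0 → ∃ y ∈ v.toValuationSubring, D f = t ^ (v.ord f).toNat * y) := by
  have ht0 : t ≠ 0 := ne_zero_of_ord_ne_zero v (by omega)
  have htmem : t ∈ v.toValuationSubring := mem_of_ord_nonneg v (by omega)
  set k := (v.ord f).toNat with hk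
  have hkn : (k : ℤ) = v.ord f := Int.toNat_of_nonneg hfO
  set u := f * (t ^ k)⁻¹ with hu
  have hu0 : u ≠ 0 := mul_ne_zero hf (inv_ne_zero (pow_ne_zero _ ht0))
  have hordu : v.ord u = 0 := by
    rw [hu, v.ord_mul hf (inv_ne_zero (pow_ne_zero _ ht0)), v.ord_inv, ord_pow, ht]
    omega
  have huO : u ∈ v.toValuationSubring := mem_of_ord_nonneg v (by omega)
  have hDu : D u ∈ v.toValuationSubring := hO u huO
  have hfu : f = t ^ k * u := by
    rw [hu]
    field_simp
  have hDpow := der_pow737 (RingHom.id F) D (by intro a b; simpa using hmul a b) t k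
  simp only [RingHom.id_apply] at hDpow
  have hDf : D f = t ^ k * D u + u * ((k : F) * t ^ (k - 1) * D t) := by
    conv_lhs => rw [hfu]
    rw [hmul, hDpow]
  constructor
  · rcases Nat.eq_zero_or_pos k with hk0 | hkpos
    · refine ⟨D u, hDu, ?_⟩
      rw [hDf, hk0]
      simp
    · refine ⟨t * D u + u * ((k : F) * D t), ?_, ?_⟩
      · refine add_mem (mul_mem htmem hDu) (mul_mem huO (mul_mem ?_ hDt))
        exact natCast_mem _ k
      · rw [hDf]
        have : t ^ k = t ^ (k - 1) * t := by
          rw [← pow_succ]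
          congr 1
          omega
        rw [this]
        ring
  · intro hDt0
    refine ⟨D u, hDu, ?_⟩
    rw [hDf, hDt0]
    ring

variable (hv : v.deg = 1) (ht : v.ord t = 1)
  (halg : Algebra.IsAlgebraic (IntermediateField.adjoin K {t}) F)
  (hadd : ∀ a b, D (a + b) = D a + D b) (hmul : ∀ a b, D (a * b) = a * D b + b * D a)
  (hK : ∀ c : K, ∃ c' : K, D (algebraMap K F c) = algebraMap K F c')

include hv ht halg hadd hmul hK

/-- `ord_v (D f) ≥ ord_v f - 1` for regular `f`. -/
theorem ord_derivation_ge_of_nonneg737 (hDt : D t ∈ v.toValuationSubring) {f : F} (hf : f ≠ 0)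
    (hfO : 0 ≤ v.ord f) (hDf : D f ≠ 0) :
    v.ord f - 1 ≤ v.ord (D f) ∧ (D t = 0 → v.ord f ≤ v.ord (D f)) := by
  have hO := derivation_mem_place737 v hv t ht halg D hadd hmul hK hDt
  have ht0 : t ≠ 0 := ne_zero_of_ord_ne_zero v (by omega)
  obtain ⟨⟨y, hy, hy'⟩, h2⟩ := exists_eq_pow_mul737 v t D ht hmul hDt hO hf hfO
  have hkn : (((v.ord f).toNat : ℕ) : ℤ) = v.ord f := Int.toNat_of_nonneg hfO
  constructor
  · have hy0 : y ≠ 0 := by
      rintro rfl
      exact hDf (by rw [hy', mul_zero])
    rw [hy', v.ord_mul (pow_ne_zero _ ht0) hy0, ord_pow, ht]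
    have := ord_nonneg_of_mem v hy
    omega
  · intro hDt0
    obtain ⟨z, hz, hz'⟩ := h2 hDt0
    have hz0 : z ≠ 0 := by
      rintro rfl
      exact hDf (by rw [hz', mul_zero])
    rw [hz', v.ord_mul (pow_ne_zero _ ht0) hz0, ord_pow, ht]
    have := ord_nonneg_of_mem v hz
    omega

/-- **DER-1**: `ord_v (D f) ≥ ord_v f - 1`, and `ord_v (D f) ≥ ord_v f` if `D t = 0`. -/
theorem ord_derivation_ge737 (hDt : D t ∈ v.toValuationSubring) {f : F} (hf : f ≠ 0)
    (hDf : D f ≠ 0) :
    v.ord f - 1 ≤ v.ord (D f) ∧ (D t = 0 → v.ord f ≤ v.ord (D f)) := by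
  rcases le_total 0 (v.ord f) with h | h
  · exact ord_derivation_ge_of_nonneg737 v t D hv ht halg hadd hmul hK hDt hf h hDf
  · -- pass to the inverse
    have hg0 : f⁻¹ ≠ 0 := inv_ne_zero hf
    have hgO : 0 ≤ v.ord f⁻¹ := by rw [v.ord_inv]; omega
    have h1 : D 1 = 0 := der_one737 (RingHom.id F) D (by intro a b; simpa using hmul a b)
    have hrel : f * D f⁻¹ + f⁻¹ * D f = 0 := by
      rw [← hmul, mul_inv_cancel₀ hf, h1]
    have hDg : D f⁻¹ = -(f⁻¹ * f⁻¹ * D f) := by
      have : f * D f⁻¹ = -(f⁻¹ * D f) := eq_neg_of_add_eq_zero_left hrel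
      field_simp
      field_simp at this
      linear_combination this
    have hDg0 : D f⁻¹ ≠ 0 := by
      rw [hDg]
      exact neg_ne_zero.mpr (mul_ne_zero (mul_ne_zero hg0 hg0) hDf)
    obtain ⟨h3, h4⟩ :=
      ord_derivation_ge_of_nonneg737 v t D hv ht halg hadd hmul hK hDt hg0 hgO hDg0
    have hord : v.ord (D f⁻¹) = -v.ord f - v.ord f + v.ord (D f) := by
      rw [hDg, ord_neg, v.ord_mul (mul_ne_zero hg0 hg0) hDf, v.ord_mul hg0 hg0, v.ord_inv]
      ring
    rw [v.ord_inv] at h3 h4
    constructor
    · omega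
    · intro hDt0
      have := h4 hDt0
      omega

/-- Units stay regular: if `ord_v f = 0` then `D f` is regular at `v`. -/
theorem ord_derivation_nonneg737 (hDt : D t ∈ v.toValuationSubring) {f : F}
    (hfO : 0 ≤ v.ord f) : 0 ≤ v.ord (D f) :=
  ord_nonneg_of_mem v
    (derivation_mem_place737 v hv t ht halg D hadd hmul hK hDt f (mem_of_ord_nonneg v hfO))

end Orders

end Fermat.Agent.S17.H737
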