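import Mathlib

/-!
# S17 / G-DIV, abstract tool (helper737): Taylor expansion along a coefficient field

`exists_taylorHom737`: let `O` be a commutative ring containing a field `K`, with a retraction
`res : O →+* K` whose kernel is generated by a regular element `t`.  Then there is a ring
homomorphism `φ : O →+* K⟦X⟧` with `φ c = C c` on constants, `φ t = X`, constant coefficient `res`,
such that `x ≡ (trunc n (φ x))(t) mod t ^ n` for all `n`; `φ x = 0` only if `x ∈ ⋂ₙ (t ^ n)`.

Mathlib-only.
-/

set_option autoImplicit false

noncomputable section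

namespace Fermat.Agent.S17.H737

open Polynomial PowerSeries

variable {K O : Type*} [Field K] [CommRing O] [Algebra K O]

/-- A polynomial of degree `< n` whose value at `t` is divisible by `t ^ n` vanishes. -/
theorem eq_zero_of_pow_dvd_aeval737 (res : O →+* K) (t : O)
    (hres : ∀ c, res (algebraMap K O c) = c) (hrt : res t = 0)
    (hreg : ∀ x : O, t * x = 0 → x = 0) :
    ∀ (n : ℕ) (p : K[X]), p.degree < n → t ^ n ∣ Polynomial.aeval t p → p = 0 := by
  have hres_aeval : ∀ p : K[X], res (Polynomial.aeval t p) = p.coeff 0 := by
    intro p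
    induction p using Polynomial.induction_on' with
    | add p q hp hq => simp [hp, hq]
    | monomial k a =>
      rcases Nat.eq_zero_or_pos k with rfl | hk
      · simp [Algebra.algebraMap_eq_smul_one]
        rw [← Algebra.algebraMap_eq_smul_one, hres]
      · simp [Polynomial.aeval_monomial, hres, hrt, hk.ne', Polynomial.coeff_monomial]
  intro n
  induction n with
  | zero =>
    intro p hp _
    rw [Polynomial.degree_lt_iff_coeff_zero] at hp
    ext m
    simpa using hp m (Nat.zero_le m)
  | succ n ih =>
    intro p hp hdvd
    -- constant coefficient vanishes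
    have h0 : p.coeff 0 = 0 := by
      obtain ⟨y, hy⟩ := hdvd
      have := congrArg res hy
      rw [hres_aeval, pow_succ', mul_assoc, map_mul, hrt, zero_mul] at this
      exact this
    -- p = X * q
    obtain ⟨q, rfl⟩ : (Polynomial.X : K[X]) ∣ p := Polynomial.X_dvd_iff.mpr h0
    have hq : q = 0 := by
      apply ih
      · rw [Polynomial.degree_lt_iff_coeff_zero] at hp ⊢
        intro m hm
        have := hp (m + 1) (by omega)
        rwa [Polynomial.coeff_X_mul] at this
      · obtain ⟨y, hy⟩ := hdvd
        refine ⟨y, ?_⟩
        have : t * (Polynomial.aeval t q - t ^ n * y) = 0 := by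
          have h1 : Polynomial.aeval t (Polynomial.X * q) = t * Polynomial.aeval t q := by simp
          rw [h1] at hy
          rw [mul_sub, hy]
          ring
        exact sub_eq_zero.mp (hreg _ this)
    rw [hq, mul_zero]

/-- `X ^ n` divides `trunc n f * trunc n g - trunc n (f * g)`. -/
theorem X_pow_dvd_trunc_mul_sub737 (n : ℕ) (f g : K⟦X⟧) :
    (Polynomial.X : K[X]) ^ n ∣
      PowerSeries.trunc n f * PowerSeries.trunc n g - PowerSeries.trunc n (f * g) := by
  rw [Polynomial.X_pow_dvd_iff]
  intro d hd
  rw [Polynomial.coeff_sub, PowerSeries.coeff_trunc, if_pos hd,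
    PowerSeries.coeff_mul_eq_coeff_trunc_mul_trunc f g hd, ← Polynomial.coe_mul,
    Polynomial.coeff_coe, sub_self]

/-- **Taylor expansion along a coefficient field.** -/
theorem exists_taylorHom737 (res : O →+* K) (t : O)
    (hres : ∀ c, res (algebraMap K O c) = c) (hrt : res t = 0)
    (hdvd : ∀ x : O, res x = 0 → t ∣ x) (hreg : ∀ x : O, t * x = 0 → x = 0) :
    ∃ φ : O →+* K⟦X⟧, (∀ c, φ (algebraMap K O c) = PowerSeries.C c) ∧ φ t = PowerSeries.X ∧
      (∀ x, PowerSeries.constantCoeff (φ x) = res x) ∧
      (∀ x n, t ^ n ∣ x - Polynomial.aeval t (PowerSeries.trunc n (φ x))) ∧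
      (∀ x, φ x = 0 → ∀ n, t ^ n ∣ x) := by
  classical
  have hsh : ∀ x : O, ∃ y : O, x = algebraMap K O (res x) + t * y := by
    intro x
    have : res (x - algebraMap K O (res x)) = 0 := by simp [hres]
    obtain ⟨y, hy⟩ := hdvd _ this
    exact ⟨y, by rw [← hy]; ring⟩
  choose sh hsh' using hsh
  have hexp : ∀ (x : O) (n : ℕ), x = Polynomial.aeval t
      (∑ i ∈ Finset.range n, Polynomial.monomial i (res (sh^[i] x))) + t ^ n * sh^[n] x := by
    intro x n
    induction n with
    | zero => simp
    | succ n ih =>
      rw [Finset.sum_range_succ, map_add, Polynomial.aeval_monomial, Function.iterate_succ_apply',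
        pow_succ]
      have h1 := hsh' (sh^[n] x)
      calc x = _ := ih
        _ = _ := by
          conv_lhs => rw [h1]
          ring
  let f : O → K⟦X⟧ := fun x => PowerSeries.mk fun i => res (sh^[i] x)
  have htrunc : ∀ (x : O) (n : ℕ), PowerSeries.trunc n (f x) =
      ∑ i ∈ Finset.range n, Polynomial.monomial i (res (sh^[i] x)) := by
    intro x n
    rw [PowerSeries.trunc_apply, ← Nat.Ico_zero_eq_range]
    refine Finset.sum_congr rfl fun i _ => ?_
    simp [f]
  have hspec : ∀ (x : O) (n : ℕ), t ^ n ∣ x - Polynomial.aeval t (PowerSeries.trunc n (f x)) := by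
    intro x n
    refine ⟨sh^[n] x, ?_⟩
    rw [htrunc]
    have := hexp x n
    rw [sub_eq_iff_eq_add']
    exact this
  have huniq : ∀ (x : O) (p : K⟦X⟧),
      (∀ n, t ^ n ∣ x - Polynomial.aeval t (PowerSeries.trunc n p)) → p = f x := by
    intro x p hp
    have key : ∀ n, PowerSeries.trunc n p = PowerSeries.trunc n (f x) := by
      intro n
      have h1 : t ^ n ∣ Polynomial.aeval t (PowerSeries.trunc n p - PowerSeries.trunc n (f x)) := by
        have := dvd_sub (hspec x n) (hp n)
        rw [map_sub]
        convert this using 1
        ring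
      have h2 : (PowerSeries.trunc n p - PowerSeries.trunc n (f x)).degree < n :=
        lt_of_le_of_lt (Polynomial.degree_sub_le _ _)
          (max_lt (PowerSeries.degree_trunc_lt _ _) (PowerSeries.degree_trunc_lt _ _))
      exact sub_eq_zero.mp (eq_zero_of_pow_dvd_aeval737 res t hres hrt hreg n _ h2 h1)
    ext i
    have := congrArg (fun q => Polynomial.coeff q i) (key (i + 1))
    simpa [PowerSeries.coeff_trunc] using this
  have hadd : ∀ x y, f (x + y) = f x + f y := by
    intro x y
    symm
    apply huniq
    intro n
    rw [map_add, map_add]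
    have := dvd_add (hspec x n) (hspec y n)
    convert this using 1
    ring
  have hmul : ∀ x y, f (x * y) = f x * f y := by
    intro x y
    symm
    apply huniq
    intro n
    obtain ⟨a, ha⟩ := hspec x n
    obtain ⟨b, hb⟩ := hspec y n
    obtain ⟨q, hq⟩ := X_pow_dvd_trunc_mul_sub737 n (f x) (f y)
    have hq' := congrArg (Polynomial.aeval t) hq
    simp only [map_sub, map_mul, map_pow, Polynomial.aeval_X] at hq'
    refine ⟨a * Polynomial.aeval t (PowerSeries.trunc n (f y)) +
      b * Polynomial.aeval t (PowerSeries.trunc n (f x)) + t ^ n * a * b +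
      Polynomial.aeval t q, ?_⟩
    generalize Polynomial.aeval t (PowerSeries.trunc n (f x)) = A at ha hq' ⊢
    generalize Polynomial.aeval t (PowerSeries.trunc n (f y)) = B at hb hq' ⊢
    generalize Polynomial.aeval t (PowerSeries.trunc n (f x * f y)) = Cc at hq' ⊢
    generalize Polynomial.aeval t q = Q at hq' ⊢
    have hx : x = A + t ^ n * a := by rw [← ha]; ring
    have hy : y = B + t ^ n * b := by rw [← hb]; ring
    have hT : Cc = A * B - t ^ n * Q := by rw [← hq']; ring
    rw [hx, hy, hT]
    ring
  have hC : ∀ c, f (algebraMap K O c) = PowerSeries.C c := by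
    intro c
    symm
    apply huniq
    intro n
    rcases n with _ | n
    · simp
    · rw [PowerSeries.trunc_C]
      simp
  have hone : f 1 = 1 := by
    have := hC 1
    simpa using this
  have hzero : f 0 = 0 := by
    have := hC 0
    simpa using this
  have hconst : ∀ x, PowerSeries.constantCoeff (f x) = res x := by
    intro x
    simp [f]
  refine ⟨{ toFun := f, map_one' := hone, map_mul' := hmul, map_zero' := hzero,
            map_add' := hadd }, hC, ?_, hconst, hspec, ?_⟩
  · change f t = PowerSeries.X
    symm
    apply huniq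
    intro n
    rcases n with _ | _ | n
    · simp
    · simp
    · rw [PowerSeries.trunc_X_of (by omega)]
      simp
  · intro x hx n
    change f x = 0 at hx
    have := hspec x n
    rw [hx] at this
    simpa using this

end Fermat.Agent.S17.H737
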