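import Fermat.Agent.S17.H710.Wall.Defs
import Fermat.Agent.S17.H380.AdjOfL1p

/-!
# S17 / tower H, WALL assembly (helper737): `(E3)`, `(ADJ)`, `(VDM)` and the contract from the cores

Assembly steps of `Wall/Skeleton.lean` (wall architect helper710, global route), with the EXACT
statements of `core_up` / `core_low` taken as hypotheses (`CoreUpStatement737`,
`CoreLowStatement737`) next to the frozen leaves of `Wall/Defs.lean`:

* `e3_of_cores737`    : `E3Statement E E`   from A6, A7, G-PT, G-ENUM, G-RANK, `core_up (m, Unit)`,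
                        `core_low`;
* `adj_of_cores737`   : `ADJStatement E E`  from A6, A7, G-PT, G-ENUM, G-RANK-JET, the same cores
                        (the first order jets collapse because `pt P ∧ pt P = 0`, `⟨a, pt P⟩ = 0`);
* `vdm_of_core_up737` : `VDMStatement E E d₀` (`d₀ + 2g ≤ m + 1`) from A6, A7, A10, G-PT, G-INDEP,
                        G-RANK and `core_up (k, Fin (k+1) ↪ Fin (r+1))`, `1 ≤ k < d₀`
                        (induction on the number of points, Laplace cofactors);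
* `contract_of_cores737` : `HContract.Contract E E d₀` from all of these and `GAUSSStatement E`.
-/

set_option autoImplicit false

noncomputable section

namespace Fermat.Agent.S17.H737

open AlgebraicCurve MvPolynomial
open Fermat.Agent.Lib.RR Fermat.Agent.S17.HWall Fermat.Agent.S17.H710
open Fermat.Agent.S17.HContract Fermat.Agent.S17.Wall

variable {K F : Type*} [Field K] [CharZero K] [Field F] [Algebra K F] [FF1 K F]

/-! ## (E3) -/

/-- The exact statement of `core_up` (`Wall/Skeleton.lean`) for `k` slots and the index type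
`ρ`. -/
def CoreUpStatement737 (E : EmbData K F) (k : ℕ) (ρ : Type) [Fintype ρ] : Prop :=
  ∃ (C : ℝ) (L : ℕ) (Q : Fin L → Place K F), Function.Injective Q ∧ E.m * E.m < L ∧
    ∀ (A : Fin k → Place K F) (W : ρ → Fin (E.r + 1) → K)
      (ψu : (Fin k → Fin (E.r + 1) × Fin (E.r + 1)) → K)
      (ψw : ρ × (Fin (k - 1) → Fin (E.r + 1)) → K),
      Module.finrank K (Submodule.span K (Set.range
        (stack (betaMat (fun i => E.pt (A i)) fun t => E.pt (Q t)) ψu
          (wMat W fun t => E.pt (Q t)) ψw))) ≤ kapN E k →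
      ψw ≠ 0 →
      ∑ i, ht (E.pt (A i)) + ht ψw ≤ ht (fun q : ρ × Fin (E.r + 1) => W q.1 q.2) + ht ψu + C

/-- The exact statement of `core_low` (`Wall/Skeleton.lean`). -/
def CoreLowStatement737 (E : EmbData K F) : Prop :=
  ∃ (C : ℝ) (L : ℕ) (Q : Fin L → Place K F), Function.Injective Q ∧ E.m * E.m < L ∧
    ∀ (a : Fin (E.r + 1) → K) (A : Fin E.m → Place K F)
      (ψu : (Fin E.m → Fin (E.r + 1) × Fin (E.r + 1)) → K)
      (ψw : Unit × (Fin (E.m - 1) → Fin (E.r + 1)) → K),
      a ≠ 0 →
      Module.finrank K (Submodule.span K (Set.range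
        (stack (betaMat (fun i => E.pt (A i)) fun t => E.pt (Q t)) ψu
          (wMat (fun _ : Unit => a) fun t => E.pt (Q t)) ψw))) ≤ kapN E E.m →
      ψu ≠ 0 →
      ht a + ht ψu ≤ ∑ i, ht (E.pt (A i)) + ht ψw + C

/-- `(D . P)` for an enumerated effective divisor. -/
theorem pairPt_sum_prim737 (E : EmbData K F) {k : ℕ} (A : Fin k → Place K F) (P : Place K F) :
    pairPt E (∑ i, prim (A i)) P = ∑ i, hD E (A i) P := by
  classical
  unfold pairPt
  rw [← Finsupp.sum_finsetSum_index (h := fun A n => ((n : ℤ) : ℝ) * hD E A P)]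
  · refine Finset.sum_congr rfl fun i _ => ?_
    unfold prim
    rw [Finsupp.sum_single_index]
    · simp
    · simp
  · intro A; simp
  · intro A n₁ n₂; push_cast; ring

omit [CharZero K] in
/-- A nonzero vector has a nonzero "monomial" of every degree. -/
theorem exists_prod_ne_zero737 {n : ℕ} {z : Fin n → K} (hz : z ≠ 0) (e : ℕ) :
    ∃ α : Fin e → Fin n, ∏ k, z (α k) ≠ 0 := by
  obtain ⟨j, hj⟩ := Function.ne_iff.mp hz
  refine ⟨fun _ => j, ?_⟩
  simpa using pow_ne_zero e hj

/-- Heights of the two extra columns "value at `P`" (A6, A7). -/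
theorem ht_columns737 [Algebra.IsAlgebraic ℚ K] (E : EmbData K F)
    (hA6 : HtBetaColStatement K) (hA7 : HtWColStatement K)
    {k : ℕ} (A : Fin k → Place K F) (P : Place K F) (hAP : ∀ i, A i ≠ P)
    (a : Fin (E.r + 1) → K) (haP : dot a (E.pt P) ≠ 0) (e : ℕ) :
    ht (betaCol (fun i => E.pt (A i)) fun _ => E.pt P) =
        ∑ i, ht (wedge (E.pt (A i)) (E.pt P)) ∧
      ht (wCol (e := e) (fun _ : Unit => a) (E.pt P)) = (e : ℝ) * ht (E.pt P) ∧
      wCol (e := e) (fun _ : Unit => a) (E.pt P) ≠ 0 ∧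
      betaCol (fun i => E.pt (A i)) (fun _ => E.pt P) ≠ 0 := by
  have hint : ∀ c : K, IsIntegral ℚ c := fun c =>
    (Algebra.IsAlgebraic.isAlgebraic (R := ℚ) c).isIntegral
  have hw : ∀ i, wedge (E.pt (A i)) (E.pt P) ≠ 0 := fun i => H380.wedge_pt_ne_zero E (hAP i)
  have hz : E.pt P ≠ 0 := H380.pt_ne_zero E P
  refine ⟨hA6 _ _ _ _ hw, ?_, ?_, ?_⟩
  · have hv : (fun _ : Unit => dot a (E.pt P)) ≠ 0 := fun h => haP (congrFun h ())
    have := hA7 (E.r + 1) e Unit (fun _ : Unit => dot a (E.pt P)) (E.pt P) hv hz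
    have h0 : ht (fun _ : Unit => dot a (E.pt P)) = 0 := H380.absLogHeight_const _ (hint _)
    rw [h0, zero_add] at this
    exact this
  · obtain ⟨α, hα⟩ := exists_prod_ne_zero737 hz e
    intro h
    have := congrFun h ((), α)
    simp only [wCol, Pi.zero_apply, mul_eq_zero] at this
    rcases this with h1 | h1
    · exact haP h1
    · exact hα h1
  · have : ∀ i, ∃ p, wedge (E.pt (A i)) (E.pt P) p ≠ 0 := fun i => Function.ne_iff.mp (hw i)
    choose s hs using this
    intro h
    have := congrFun h s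
    simp only [betaCol, Pi.zero_apply, Finset.prod_eq_zero_iff, Finset.mem_univ, true_and] at this
    obtain ⟨i, hi⟩ := this
    exact hs i hi

/-- **(E3) from the cores.** -/
theorem e3_of_cores737 [Algebra.IsAlgebraic ℚ K] (E : EmbData K F)
    (hA6 : HtBetaColStatement K) (hA7 : HtWColStatement K)
    (hpt : PtStatement E) (henum : EnumStatement K F) (hrank : RankStatement E)
    (hup : CoreUpStatement737 E E.m Unit) (hlow : CoreLowStatement737 E) :
    E3Statement E E := by
  classical
  obtain ⟨C₁, L₁, Q₁, -, -, h₁⟩ := hup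
  obtain ⟨C₂, L₂, Q₂, -, -, h₂⟩ := hlow
  have hm1 : 1 ≤ E.m := by have := E.hm; omega
  refine ⟨max C₁ C₂, fun a P ha haP => ?_⟩
  -- enumerate the hyperplane section
  obtain ⟨A, hA⟩ := henum (E.Z a) (E.Z_nonneg a) E.m (E.degree_Z ha)
  -- `P ∉ Z_a`
  have hZP : E.Z a P = 0 := by
    have h1 : ¬ 0 < E.Z a P := fun h => haP ((E.pt_spec P a ha).mpr h)
    have h2 : 0 ≤ E.Z a P := by
      have := E.Z_nonneg a
      rw [Finsupp.le_def] at this
      simpa using this P
    omega
  have hAZ : ∀ i, 0 < E.Z a (A i) := by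
    intro i
    rw [hA, Finsupp.finsetSum_apply]
    have h1 : (1 : ℤ) ≤ prim (A i) (A i) := by simp [prim]
    have h2 : prim (A i) (A i) ≤ ∑ j, prim (A j) (A i) :=
      Finset.single_le_sum (f := fun j => prim (A j) (A i))
        (fun j _ => by
          unfold prim
          rw [Finsupp.single_apply]
          split_ifs <;> simp) (Finset.mem_univ i)
    omega
  have hAP : ∀ i, A i ≠ P := by
    intro i h
    have := hAZ i
    rw [h, hZP] at this
    exact lt_irrefl _ this
  obtain ⟨hu, hw, hw0, hu0⟩ := ht_columns737 E hA6 hA7 A P hAP a haP (E.m - 1)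
  -- rank conditions
  have hW : ∀ r : Unit, (fun _ : Unit => a) r ≠ 0 →
      ∑ l, prim (A l) ≤ E.Z ((fun _ : Unit => a) r) := fun _ _ => hA ▸ le_refl _
  have hr₁ := hrank E.m A Unit (fun _ => a) hm1 hW (Fin L₁) (fun t => E.pt (Q₁ t)) (E.pt P)
    (fun j => hpt.2.1 _) (hpt.2.1 P)
  have hr₂ := hrank E.m A Unit (fun _ => a) hm1 hW (Fin L₂) (fun t => E.pt (Q₂ t)) (E.pt P)
    (fun j => hpt.2.1 _) (hpt.2.1 P)
  have hup' := h₁ A (fun _ => a) _ _ hr₁ hw0
  have hlow' := h₂ a A _ _ ha hr₂ hu0
  have hta : ht (fun q : Unit × Fin (E.r + 1) => (fun _ : Unit => a) q.1 q.2) = ht a := by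
    have := H380.absLogHeight_comp_equiv (Equiv.punitProd (Fin (E.r + 1))) a
    exact this
  rw [hu, hw, hta] at hup'
  rw [hu, hw] at hlow'
  -- the pairing
  have hpair : pairPt E (E.Z a) P = ∑ i, hD E (A i) P := by
    rw [hA]
    exact pairPt_sum_prim737 E A P
  have hsum : ∑ i, hD E (A i) P = ∑ i, ht (E.pt (A i)) + (E.m : ℝ) * ht (E.pt P)
      - ∑ i, ht (wedge (E.pt (A i)) (E.pt P)) := by
    unfold hD
    rw [Finset.sum_sub_distrib, Finset.sum_add_distrib]
    simp
  have hcast : ((E.m - 1 : ℕ) : ℝ) = (E.m : ℝ) - 1 := by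
    rw [Nat.cast_sub hm1]
    simp
  rw [hcast] at hup' hlow'
  rw [hpair, hsum, abs_le]
  constructor
  · have := le_max_right C₁ C₂
    linarith
  · have := le_max_left C₁ C₂
    linarith

/-! ## (ADJ) -/

omit [CharZero K] in
/-- If the slot `i₀` carries the point `z` itself, the jet of `β_s` at `z` is the value of
`β_s` with `z'` in the slot `i₀`. -/
theorem betaJet_eq_betaCol737 {n d : ℕ} (u : Fin d → Fin n → K) (z z' : Fin n → K) (i₀ : Fin d)
    (h : u i₀ = z) : betaJet u z z' = betaCol u (Function.update (fun _ => z) i₀ z') := by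
  classical
  funext s
  unfold betaJet betaCol
  rw [Finset.sum_eq_single i₀]
  · rw [← Finset.mul_prod_erase Finset.univ _ (Finset.mem_univ i₀)]
    congr 1
    · rw [Function.update_self]
    · refine Finset.prod_congr rfl fun i hi => ?_
      rw [Function.update_of_ne (Finset.ne_of_mem_erase hi)]
  · intro l _ hl
    have hmem : i₀ ∈ Finset.univ.erase l := Finset.mem_erase.mpr ⟨fun h => hl h.symm, Finset.mem_univ _⟩
    have h0 : wedge (u i₀) z (s i₀) = 0 := by
      rw [h, wedge_self]
      rfl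
    rw [Finset.prod_eq_zero hmem h0, mul_zero]
  · intro h
    exact absurd (Finset.mem_univ i₀) h

omit [CharZero K] in
/-- If `⟨a, z⟩ = 0`, the jet of `a X^α` at `z` is `⟨a, z'⟩ z^α`. -/
theorem wJet_eq737 {n e : ℕ} (a z z' : Fin n → K) (h : dot a z = 0) :
    wJet (e := e) (fun _ : Unit => a) z z' =
      fun t => (fun _ : Unit => dot a z') t.1 * ∏ k, z (t.2 k) := by
  funext t
  unfold wJet
  rw [h, zero_mul, add_zero]

/-- `(D . P)` for an enumerated effective divisor (finset version). -/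
theorem pairPt_sum_prim_finset737 (E : EmbData K F) {k : ℕ} (s : Finset (Fin k))
    (A : Fin k → Place K F) (P : Place K F) :
    pairPt E (∑ i ∈ s, prim (A i)) P = ∑ i ∈ s, hD E (A i) P := by
  classical
  unfold pairPt
  rw [← Finsupp.sum_finsetSum_index (h := fun A n => ((n : ℤ) : ℝ) * hD E A P)]
  · refine Finset.sum_congr rfl fun i _ => ?_
    unfold prim
    rw [Finsupp.sum_single_index]
    · simp
    · simp
  · intro A; simp
  · intro A n₁ n₂; push_cast; ring

omit [CharZero K] [FF1 K F] in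
/-- A place of multiplicity one in an enumerated divisor occurs exactly once. -/
theorem exists_unique_index737 {k : ℕ} (A : Fin k → Place K F) (P : Place K F)
    (h : (∑ i, prim (A i) : Divisor K F) P = 1) :
    ∃ i₀, A i₀ = P ∧ ∀ i, A i = P → i = i₀ := by
  classical
  rw [Finsupp.finsetSum_apply] at h
  have h1 : ∀ i, prim (A i) P = if A i = P then (1 : ℤ) else 0 := by
    intro i
    unfold prim
    rw [Finsupp.single_apply]
  simp only [h1] at h
  rw [Finset.sum_boole] at h
  have h2 : (Finset.univ.filter fun i => A i = P).card = 1 := by exact_mod_cast h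
  obtain ⟨i₀, hi₀⟩ := Finset.card_eq_one.mp h2
  refine ⟨i₀, ?_, fun i hi => ?_⟩
  · have : i₀ ∈ Finset.univ.filter fun i => A i = P := by rw [hi₀]; simp
    exact (Finset.mem_filter.mp this).2
  · have : i ∈ Finset.univ.filter fun i => A i = P := Finset.mem_filter.mpr ⟨Finset.mem_univ _, hi⟩
    rw [hi₀] at this
    exact Finset.mem_singleton.mp this

omit [CharZero K] [FF1 K F] in
/-- Removing a point of multiplicity one from an enumerated divisor. -/
theorem erase_sum_prim737 {k : ℕ} (A : Fin k → Place K F) (P : Place K F) (i₀ : Fin k)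
    (h₀ : A i₀ = P) (huniq : ∀ i, A i = P → i = i₀) :
    (∑ i, prim (A i) : Divisor K F).erase P = ∑ i ∈ Finset.univ.erase i₀, prim (A i) := by
  classical
  ext Q
  by_cases hQ : Q = P
  · subst hQ
    rw [Finsupp.erase_same, Finsupp.finsetSum_apply]
    symm
    refine Finset.sum_eq_zero fun i hi => ?_
    unfold prim
    rw [Finsupp.single_apply, if_neg]
    exact fun h => (Finset.ne_of_mem_erase hi) (huniq i h)
  · rw [Finsupp.erase_ne hQ, Finsupp.finsetSum_apply, Finsupp.finsetSum_apply,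
      ← Finset.add_sum_erase Finset.univ _ (Finset.mem_univ i₀)]
    have : prim (A i₀) Q = 0 := by
      unfold prim
      rw [Finsupp.single_apply, if_neg]
      rw [h₀]
      exact fun h => hQ h.symm
    rw [this, zero_add]

/-- **(ADJ) from the cores.** -/
theorem adj_of_cores737 [Algebra.IsAlgebraic ℚ K] (E : EmbData K F)
    (hA6 : HtBetaColStatement K) (hA7 : HtWColStatement K)
    (hpt : PtStatement E) (henum : EnumStatement K F) (hrankJet : RankJetStatement E)
    (hup : CoreUpStatement737 E E.m Unit) (hlow : CoreLowStatement737 E) :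
    ADJStatement E E := by
  classical
  have hint : ∀ c : K, IsIntegral ℚ c := fun c =>
    (Algebra.IsAlgebraic.isAlgebraic (R := ℚ) c).isIntegral
  obtain ⟨C₁, L₁, Q₁, -, -, h₁⟩ := hup
  obtain ⟨C₂, L₂, Q₂, -, -, h₂⟩ := hlow
  have hm1 : 1 ≤ E.m := by have := E.hm; omega
  refine ⟨max C₁ C₂, fun a P ha hZP => ?_⟩
  obtain ⟨A, hA⟩ := henum (E.Z a) (E.Z_nonneg a) E.m (E.degree_Z ha)
  obtain ⟨i₀, hi₀, huniq⟩ := exists_unique_index737 A P (hA ▸ hZP)
  -- `⟨a, pt P⟩ = 0`, `⟨a, tn P⟩ ≠ 0`
  have haP : dot a (E.pt P) = 0 := (E.pt_spec P a ha).mpr (by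
    change 0 < E.Z a P
    rw [hZP]
    exact one_pos)
  have haT : dot a (E.tn P) ≠ 0 := by
    intro h
    have := (E.tn_spec P a ha).mp ⟨haP, h⟩
    change 2 ≤ E.Z a P at this
    rw [hZP] at this
    omega
  have hz : E.pt P ≠ 0 := H380.pt_ne_zero E P
  -- the two jets
  have hju := betaJet_eq_betaCol737 (fun i => E.pt (A i)) (E.pt P) (E.tn P) i₀ (by rw [hi₀])
  have hjw := wJet_eq737 (e := E.m - 1) a (E.pt P) (E.tn P) haP
  have hwne : ∀ i, wedge (E.pt (A i)) (Function.update (fun _ => E.pt P) i₀ (E.tn P) i) ≠ 0 := by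
    intro i
    by_cases hi : i = i₀
    · subst hi
      rw [Function.update_self, hi₀]
      exact hpt.2.2.2 P
    · rw [Function.update_of_ne hi]
      exact H380.wedge_pt_ne_zero E fun h => hi (huniq i h)
  have hu : ht (betaJet (fun i => E.pt (A i)) (E.pt P) (E.tn P)) =
      ht (wedge (E.pt P) (E.tn P)) +
        ∑ i ∈ Finset.univ.erase i₀, ht (wedge (E.pt (A i)) (E.pt P)) := by
    rw [hju, hA6 _ _ _ _ hwne, ← Finset.add_sum_erase Finset.univ _ (Finset.mem_univ i₀),
      Function.update_self, hi₀]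
    congr 1
    refine Finset.sum_congr rfl fun i hi => ?_
    rw [Function.update_of_ne (Finset.ne_of_mem_erase hi)]
  have hv : (fun _ : Unit => dot a (E.tn P)) ≠ 0 := fun h => haT (congrFun h ())
  have hw : ht (wJet (e := E.m - 1) (fun _ : Unit => a) (E.pt P) (E.tn P)) =
      ((E.m - 1 : ℕ) : ℝ) * ht (E.pt P) := by
    rw [hjw]
    have := hA7 (E.r + 1) (E.m - 1) Unit (fun _ : Unit => dot a (E.tn P)) (E.pt P) hv hz
    have h0 : ht (fun _ : Unit => dot a (E.tn P)) = 0 := H380.absLogHeight_const _ (hint _)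
    rw [h0, zero_add] at this
    exact this
  have hw0 : wJet (e := E.m - 1) (fun _ : Unit => a) (E.pt P) (E.tn P) ≠ 0 := by
    rw [hjw]
    obtain ⟨α, hα⟩ := exists_prod_ne_zero737 hz (E.m - 1)
    intro h
    have := congrFun h ((), α)
    simp only [Pi.zero_apply, mul_eq_zero] at this
    rcases this with h1 | h1
    · exact haT h1
    · exact hα h1
  have hu0 : betaJet (fun i => E.pt (A i)) (E.pt P) (E.tn P) ≠ 0 := by
    rw [hju]
    have : ∀ i, ∃ p, wedge (E.pt (A i)) (Function.update (fun _ => E.pt P) i₀ (E.tn P) i) p ≠ 0 :=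
      fun i => Function.ne_iff.mp (hwne i)
    choose s hs using this
    intro h
    have := congrFun h s
    simp only [betaCol, Pi.zero_apply, Finset.prod_eq_zero_iff, Finset.mem_univ, true_and] at this
    obtain ⟨i, hi⟩ := this
    exact hs i hi
  -- rank conditions
  have hW : ∀ r : Unit, (fun _ : Unit => a) r ≠ 0 →
      ∑ l, prim (A l) ≤ E.Z ((fun _ : Unit => a) r) := fun _ _ => hA ▸ le_refl _
  have hr₁ := hrankJet E.m A Unit (fun _ => a) hm1 hW (Fin L₁) (fun t => E.pt (Q₁ t)) P
    (fun j => hpt.2.1 _)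
  have hr₂ := hrankJet E.m A Unit (fun _ => a) hm1 hW (Fin L₂) (fun t => E.pt (Q₂ t)) P
    (fun j => hpt.2.1 _)
  have hup' := h₁ A (fun _ => a) _ _ hr₁ hw0
  have hlow' := h₂ a A _ _ ha hr₂ hu0
  have hta : ht (fun q : Unit × Fin (E.r + 1) => (fun _ : Unit => a) q.1 q.2) = ht a :=
    H380.absLogHeight_comp_equiv (Equiv.punitProd (Fin (E.r + 1))) a
  rw [hu, hw, hta] at hup'
  rw [hu, hw] at hlow'
  -- the pairing
  have hpair : pairPt E ((E.Z a).erase P) P = ∑ i ∈ Finset.univ.erase i₀, hD E (A i) P := by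
    rw [hA, erase_sum_prim737 A P i₀ hi₀ huniq]
    exact pairPt_sum_prim_finset737 E _ A P
  have hcard : ((Finset.univ.erase i₀ : Finset (Fin E.m)).card : ℝ) = (E.m : ℝ) - 1 := by
    rw [Finset.card_erase_of_mem (Finset.mem_univ _), Finset.card_univ, Fintype.card_fin,
      Nat.cast_sub hm1]
    simp
  have hsum : ∑ i ∈ Finset.univ.erase i₀, hD E (A i) P =
      ∑ i ∈ Finset.univ.erase i₀, ht (E.pt (A i)) + ((E.m : ℝ) - 1) * ht (E.pt P)
        - ∑ i ∈ Finset.univ.erase i₀, ht (wedge (E.pt (A i)) (E.pt P)) := by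
    unfold hD
    rw [Finset.sum_sub_distrib, Finset.sum_add_distrib, Finset.sum_const, nsmul_eq_mul, hcard]
  have hall : ∑ i, ht (E.pt (A i)) =
      ht (E.pt P) + ∑ i ∈ Finset.univ.erase i₀, ht (E.pt (A i)) := by
    rw [← Finset.add_sum_erase Finset.univ _ (Finset.mem_univ i₀), hi₀]
  have hcast : ((E.m - 1 : ℕ) : ℝ) = (E.m : ℝ) - 1 := by
    rw [Nat.cast_sub hm1]
    simp
  rw [hcast, hall] at hup' hlow'
  rw [hpair, hsum, abs_le]
  unfold kap
  constructor
  · have := le_max_right C₁ C₂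
    linarith
  · have := le_max_left C₁ C₂
    linarith

/-! ## (VDM) -/

/-- The right hand side of (VDM) without the constant. -/
def vdmRhs737 (E : EmbData K F) {d : ℕ} (P : Fin d → Place K F) : ℝ :=
  (∑ i, ht (E.pt (P i))) - (∑ i, ∑ j, if i < j then hD E (P i) (P j) else 0)

/-- Splitting off the last point. -/
theorem vdmRhs737_succ (E : EmbData K F) {d : ℕ} (P : Fin (d + 1) → Place K F) :
    vdmRhs737 E P = vdmRhs737 E (fun i : Fin d => P i.castSucc) + ht (E.pt (P (Fin.last d)))
      - ∑ i : Fin d, hD E (P i.castSucc) (P (Fin.last d)) := by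
  unfold vdmRhs737
  rw [Fin.sum_univ_castSucc, Fin.sum_univ_castSucc]
  have h1 : ∀ i : Fin d, (∑ j : Fin (d + 1), if i.castSucc < j then hD E (P i.castSucc) (P j) else 0)
      = (∑ j : Fin d, if i < j then hD E (P i.castSucc) (P j.castSucc) else 0)
        + hD E (P i.castSucc) (P (Fin.last d)) := by
    intro i
    rw [Fin.sum_univ_castSucc (f := fun j : Fin (d + 1) =>
      if i.castSucc < j then hD E (P i.castSucc) (P j) else 0)]
    simp only [Fin.castSucc_lt_castSucc_iff, Fin.castSucc_lt_last, if_true]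
  have h2 : (∑ j : Fin (d + 1), if Fin.last d < j then hD E (P (Fin.last d)) (P j) else 0) = 0 := by
    refine Finset.sum_eq_zero fun j _ => ?_
    rw [if_neg]
    exact not_lt.mpr (Fin.le_last j)
  rw [h2, Finset.sum_congr rfl fun i _ => h1 i, Finset.sum_add_distrib]
  ring

omit [CharZero K] [FF1 K F] in
/-- A reduced divisor lies below every effective divisor containing its points. -/
theorem sum_prim_le737 {d : ℕ} (A : Fin d → Place K F) (hA : Function.Injective A)
    (Z : Divisor K F) (hZ : 0 ≤ Z) (h : ∀ l, 0 < Z (A l)) : ∑ l, prim (A l) ≤ Z := by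
  classical
  rw [Finsupp.le_def]
  intro Q
  rw [Finsupp.finsetSum_apply]
  have h0 : 0 ≤ Z Q := by
    rw [Finsupp.le_def] at hZ
    simpa using hZ Q
  by_cases hQ : ∃ l, A l = Q
  · obtain ⟨l, rfl⟩ := hQ
    have h1 : ∑ i, prim (A i) (A l) = prim (A l) (A l) := by
      refine Finset.sum_eq_single l (fun i _ hi => ?_) (fun hl => absurd (Finset.mem_univ l) hl)
      unfold prim
      rw [Finsupp.single_apply, if_neg]
      exact fun h => hi (hA h)
    rw [h1]
    have := h l
    simp only [prim, Finsupp.single_eq_same]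
    omega
  · have h1 : ∑ i, prim (A i) Q = 0 := by
      refine Finset.sum_eq_zero fun i _ => ?_
      unfold prim
      rw [Finsupp.single_apply, if_neg]
      exact fun h => hQ ⟨i, h⟩
    rw [h1]
    exact h0

/-- Step of the induction for (VDM). -/
theorem vdm_step737 [Algebra.IsAlgebraic ℚ K] (E : EmbData K F)
    (hA6 : HtBetaColStatement K) (hA7 : HtWColStatement K) (hA10 : PluckerStepStatement K)
    (hpt : PtStatement E) (hindep : IndepStatement E) (hrank : RankStatement E)
    (d : ℕ) (hd1 : 1 ≤ d) (hd : d + 1 + 2 * genusR K F ≤ E.m + 1)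
    (hup : CoreUpStatement737 E d (Fin (d + 1) ↪ Fin (E.r + 1)))
    (C : ℝ) (hC : ∀ P : Fin d → Place K F, Function.Injective P →
        ht (plucker fun i => E.pt (P i)) ≤ vdmRhs737 E P + C) :
    ∃ C' : ℝ, ∀ P : Fin (d + 1) → Place K F, Function.Injective P →
        ht (plucker fun i => E.pt (P i)) ≤ vdmRhs737 E P + C' := by
  classical
  obtain ⟨Cu, L, Q, -, -, hcore⟩ := hup
  obtain ⟨C10, h10⟩ := hA10 (E.r + 1) d
  refine ⟨C + Cu + C10, fun P hP => ?_⟩
  have hAinj : Function.Injective (fun i : Fin d => P i.castSucc) :=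
    hP.comp (Fin.castSucc_injective d)
  have hAP : ∀ i : Fin d, P i.castSucc ≠ P (Fin.last d) :=
    fun i h => (Fin.castSucc_lt_last i).ne (hP h)
  obtain ⟨W, hWy, hWz, hWht⟩ := h10 (fun i => E.pt (P i.castSucc))
  have hz : E.pt (P (Fin.last d)) ≠ 0 := H380.pt_ne_zero E _
  have hsnoc : (fun i : Fin (d + 1) => E.pt (P i)) =
      Fin.snoc (α := fun _ => Fin (E.r + 1) → K) (fun i : Fin d => E.pt (P i.castSucc))
        (E.pt (P (Fin.last d))) := by
    funext i
    refine Fin.lastCases ?_ (fun j => ?_) i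
    · simp
    · simp
  have hv : (fun e => dot (W e) (E.pt (P (Fin.last d)))) = plucker (fun i => E.pt (P i)) := by
    funext e
    rw [hWz, hsnoc]
  have hv0 : plucker (fun i => E.pt (P i)) ≠ 0 := hindep (d + 1) P hd hP
  -- heights of the extra column
  have hψw : ht (wCol (e := d - 1) W (E.pt (P (Fin.last d)))) =
      ht (plucker fun i => E.pt (P i)) + ((d - 1 : ℕ) : ℝ) * ht (E.pt (P (Fin.last d))) := by
    have := hA7 (E.r + 1) (d - 1) (Fin (d + 1) ↪ Fin (E.r + 1))
      (fun e => dot (W e) (E.pt (P (Fin.last d)))) (E.pt (P (Fin.last d))) (hv ▸ hv0) hz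
    rw [hv] at this
    rw [← this]
    rfl
  have hψw0 : wCol (e := d - 1) W (E.pt (P (Fin.last d))) ≠ 0 := by
    obtain ⟨e, he⟩ := Function.ne_iff.mp hv0
    obtain ⟨α, hα⟩ := exists_prod_ne_zero737 hz (d - 1)
    intro h
    have := congrFun h (e, α)
    simp only [wCol, Pi.zero_apply, mul_eq_zero] at this
    rcases this with h1 | h1
    · apply he
      rw [← hv]
      exact h1
    · exact hα h1
  have hψu : ht (betaCol (fun i : Fin d => E.pt (P i.castSucc)) fun _ => E.pt (P (Fin.last d))) =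
      ∑ i : Fin d, ht (wedge (E.pt (P i.castSucc)) (E.pt (P (Fin.last d)))) :=
    hA6 _ _ _ _ fun i => H380.wedge_pt_ne_zero E (hAP i)
  -- the rank condition
  have hW : ∀ r, W r ≠ 0 → ∑ l : Fin d, prim (P l.castSucc) ≤ E.Z (W r) := by
    intro r hr
    refine sum_prim_le737 _ hAinj _ (E.Z_nonneg _) fun l => ?_
    exact (E.pt_spec _ _ hr).mp (hWy r l)
  have hr := hrank d (fun i => P i.castSucc) _ W hd1 hW (Fin L) (fun t => E.pt (Q t))
    (E.pt (P (Fin.last d))) (fun j => hpt.2.1 _) (hpt.2.1 _)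
  have hmain := hcore (fun i => P i.castSucc) W _ _ hr hψw0
  rw [hψw, hψu] at hmain
  have hIH := hC (fun i => P i.castSucc) hAinj
  rw [vdmRhs737_succ E P]
  have hsum : ∑ i : Fin d, hD E (P i.castSucc) (P (Fin.last d)) =
      ∑ i : Fin d, ht (E.pt (P i.castSucc)) + (d : ℝ) * ht (E.pt (P (Fin.last d)))
        - ∑ i : Fin d, ht (wedge (E.pt (P i.castSucc)) (E.pt (P (Fin.last d)))) := by
    unfold hD
    rw [Finset.sum_sub_distrib, Finset.sum_add_distrib]
    simp
  have hcast : ((d - 1 : ℕ) : ℝ) = (d : ℝ) - 1 := by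
    rw [Nat.cast_sub hd1]
    simp
  rw [hcast] at hmain
  rw [hsum]
  linarith

/-- (VDM) for no point. -/
theorem vdm_zero737 [Algebra.IsAlgebraic ℚ K] (E : EmbData K F) (P : Fin 0 → Place K F) :
    ht (plucker fun i => E.pt (P i)) ≤ vdmRhs737 E P + 0 := by
  have hint : ∀ c : K, IsIntegral ℚ c := fun c =>
    (Algebra.IsAlgebraic.isAlgebraic (R := ℚ) c).isIntegral
  have h1 : (plucker fun i => E.pt (P i)) = fun _ => (1 : K) := by
    funext e
    unfold plucker
    exact Matrix.det_isEmpty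
  rw [h1, show ht (fun _ : Fin 0 ↪ Fin (E.r + 1) => (1 : K)) = 0 from
    H380.absLogHeight_const _ (hint _)]
  simp [vdmRhs737]

/-- (VDM) for one point. -/
theorem vdm_one737 (E : EmbData K F) (P : Fin 1 → Place K F) :
    ht (plucker fun i => E.pt (P i)) ≤ vdmRhs737 E P + 0 := by
  let eqv : (Fin 1 ↪ Fin (E.r + 1)) ≃ Fin (E.r + 1) :=
    { toFun := fun e => e 0
      invFun := fun j => ⟨fun _ => j, fun a b _ => Subsingleton.elim a b⟩
      left_inv := fun e => by
        ext i
        have : i = 0 := Subsingleton.elim _ _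
        subst this
        rfl
      right_inv := fun j => rfl }
  have h1 : (plucker fun i => E.pt (P i)) = E.pt (P 0) ∘ eqv := by
    funext e
    unfold plucker
    rw [Matrix.det_fin_one]
    rfl
  have h2 : ht (E.pt (P 0) ∘ eqv) = ht (E.pt (P 0)) := H380.absLogHeight_comp_equiv eqv _
  rw [h1, h2]
  simp [vdmRhs737]

/-- **(VDM) from `core_up`.** -/
theorem vdm_of_core_up737 [Algebra.IsAlgebraic ℚ K] (E : EmbData K F)
    (hA6 : HtBetaColStatement K) (hA7 : HtWColStatement K) (hA10 : PluckerStepStatement K)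
    (hpt : PtStatement E) (hindep : IndepStatement E) (hrank : RankStatement E)
    (d₀ : ℕ) (hd : d₀ + 2 * genusR K F ≤ E.m + 1)
    (hup : ∀ k, 1 ≤ k → k < d₀ → CoreUpStatement737 E k (Fin (k + 1) ↪ Fin (E.r + 1))) :
    VDMStatement E E d₀ := by
  classical
  have key : ∀ d, d ≤ d₀ → ∃ C : ℝ, ∀ P : Fin d → Place K F, Function.Injective P →
      ht (plucker fun i => E.pt (P i)) ≤ vdmRhs737 E P + C := by
    intro d
    induction d with
    | zero => exact fun _ => ⟨0, fun P _ => vdm_zero737 E P⟩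
    | succ d ih =>
      intro hd'
      rcases Nat.eq_zero_or_pos d with rfl | hdpos
      · exact ⟨0, fun P _ => vdm_one737 E P⟩
      · obtain ⟨C, hC⟩ := ih (by omega)
        exact vdm_step737 E hA6 hA7 hA10 hpt hindep hrank d hdpos (by omega)
          (hup d hdpos (by omega)) C hC
  choose! Cf hCf using key
  refine ⟨∑ d ∈ Finset.range (d₀ + 1), |Cf d|, fun d P hd' hP => ?_⟩
  have h1 := hCf d hd' P hP
  have h2 : Cf d ≤ ∑ d ∈ Finset.range (d₀ + 1), |Cf d| :=
    le_trans (le_abs_self _)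
      (Finset.single_le_sum (f := fun d => |Cf d|) (fun _ _ => abs_nonneg _)
        (Finset.mem_range.mpr (by omega)))
  unfold vdmRhs737 at h1
  linarith

/-- **THE WALL from the cores**: the contract for one embedding. -/
theorem contract_of_cores737 [Algebra.IsAlgebraic ℚ K] (E : EmbData K F)
    (hA6 : HtBetaColStatement K) (hA7 : HtWColStatement K) (hA10 : PluckerStepStatement K)
    (hpt : PtStatement E) (henum : EnumStatement K F) (hindep : IndepStatement E)
    (hrank : RankStatement E) (hrankJet : RankJetStatement E)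
    (hup : ∀ (k : ℕ) (ρ : Type) [Fintype ρ], 1 ≤ k → CoreUpStatement737 E k ρ)
    (hlow : CoreLowStatement737 E) (hG : GAUSSStatement E)
    (d₀ : ℕ) (hd : d₀ + 2 * genusR K F ≤ E.m + 1) : Contract E E d₀ where
  vinf_eq := rfl
  e3 := e3_of_cores737 E hA6 hA7 hpt henum hrank
    (hup E.m Unit (by have := E.hm; omega)) hlow
  adj := adj_of_cores737 E hA6 hA7 hpt henum hrankJet
    (hup E.m Unit (by have := E.hm; omega)) hlow
  vdm := vdm_of_core_up737 E hA6 hA7 hA10 hpt hindep hrank d₀ hd
    (fun k hk _ => hup k _ hk)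
  gauss := hG
  nc := H380.nc_self E

end Fermat.Agent.S17.H737
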